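import Fermat.Agent.GRHClasses.Variance
import Fermat.Agent.GRHProgressions.Converse
import Fermat.Agent.Root.SummaryPsiOscillation

/-!
# The Riemann hypothesis mod `q` and the error term of `ψ (x; q, a)`

`ψ (x, χ) = ∑_a χ a ψ (x; q, a)`, so `O_ε (x ^ (1/2 + ε))` for every class gives the same for every
character and keeps the zeros out of `re s > 1/2`; the functional equation does the rest.
-/

set_option autoImplicit false

noncomputable section

namespace FA.GRHClasses

open Finset Filter Asymptotics Topology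
open DirichletCharacter (LFunction)
open FA.Gallagher (psiChar twist primOf primOf_eq_one_iff)
open FA.GRHProgressions (GRHMod)
open FA.DirichletHadamard (GRHFor completed_reflect)
open FA.DirichletZeroCount (completed_eq_mul gammaShift_ne_zero)
open scoped Real ComplexConjugate Classical ArithmeticFunction.vonMangoldt

variable {q : ℕ} [NeZero q]

theorem psiChar_eq_sum (χ : DirichletCharacter ℂ q) (x : ℝ) :
    psiChar χ x = ∑ a : ZMod q, χ a * (PNT.psiClass a x : ℂ) := by
  simp only [psiChar, PNT.psiClass, Complex.ofReal_sum, mul_sum]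
  rw [sum_comm]
  refine sum_congr rfl fun n _ => ?_
  rw [sum_eq_single (n : ZMod q)]
  · simp [twist, ArithmeticFunction.vonMangoldt.residueClass]
  · intro a _ ha
    simp [ArithmeticFunction.vonMangoldt.residueClass, Ne.symm ha]
  · simp

theorem deltaChar_eq_sum (χ : DirichletCharacter ℂ q) (x : ℝ) :
    deltaChar χ x = ∑ a ∈ unitSet q, χ a * ((PNT.psiClass a x - x / q.totient : ℝ) : ℂ) := by
  have hφ : (q.totient : ℂ) ≠ 0 := Nat.cast_ne_zero.2 (Nat.totient_pos.2 (NeZero.pos q)).ne'
  rw [unitSet, sum_filter_of_ne fun a _ hne => ?_]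
  swap
  · by_contra ha
    exact hne (by rw [MulChar.map_nonunit χ ha, zero_mul])
  simp only [Complex.ofReal_sub, mul_sub, sum_sub_distrib, ← sum_mul, deltaChar, ← psiChar_eq_sum]
  congr 1
  split_ifs with h
  · rw [h, MulChar.sum_one_eq_card_units, ZMod.card_units_eq_totient]
    push_cast
    field_simp
  · rw [MulChar.sum_eq_zero_of_ne_one h, zero_mul]

/-- The hypothesis on every class. -/
def ClassBound (q : ℕ) [NeZero q] : Prop := ∀ a : ZMod q, IsUnit a → ∀ ε : ℝ, 0 < ε →
  (fun x : ℝ => PNT.psiClass a x - x / q.totient) =O[atTop] fun x : ℝ => x ^ (1 / 2 + ε)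

theorem isBigO_deltaChar (h : ClassBound q) (χ : DirichletCharacter ℂ q) {ε : ℝ} (hε : 0 < ε) :
    deltaChar χ =O[atTop] fun x : ℝ => x ^ (1 / 2 + ε) := by
  rw [show deltaChar χ = fun x => ∑ a ∈ unitSet q,
    χ a * ((PNT.psiClass a x - x / q.totient : ℝ) : ℂ) from funext (deltaChar_eq_sum χ)]
  exact IsBigO.fun_sum fun a ha =>
    (Complex.isBigO_ofReal_left.2 (h a (mem_unitSet.1 ha) ε hε)).const_mul_left _

theorem euler_factor_ne_zero {N M : ℕ} (χ : DirichletCharacter ℂ M) {s : ℂ} (hs : 0 < s.re) :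
    ∏ p ∈ N.primeFactors, (1 - χ p * (p : ℂ) ^ (-s)) ≠ 0 := by
  refine prod_ne_zero_iff.2 fun p hp h => ?_
  have hp2 : (1 : ℝ) < p := Nat.one_lt_cast.2 (Nat.prime_of_mem_primeFactors hp).one_lt
  have h1 : ‖χ p * (p : ℂ) ^ (-s)‖ < 1 := by
    rw [norm_mul, Complex.norm_natCast_cpow_of_pos (Nat.prime_of_mem_primeFactors hp).pos]
    refine lt_of_le_of_lt (mul_le_of_le_one_left (by positivity) (χ.norm_le_one _)) ?_
    exact Real.rpow_lt_one_of_one_lt_of_neg hp2 (by simpa using hs)
  rw [← sub_eq_zero.1 h, norm_one] at h1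
  exact lt_irrefl 1 h1

/-- **Nonprincipal characters.** -/
theorem grhFor_of_bound {χ : DirichletCharacter ℂ q} (hχ : χ ≠ 1)
    (h : ∀ ε : ℝ, 0 < ε → psiChar χ =O[atTop] fun x : ℝ => x ^ (1 / 2 + ε)) : GRHFor χ := by
  have hright : ∀ ρ : ℂ, 1 / 2 < ρ.re → LFunction χ ρ ≠ 0 := fun ρ hρ =>
    GRHProgressions.lfunction_ne_zero_of_psi hχ (θ := 1 / 2 + (ρ.re - 1 / 2) / 2) (by linarith)
      (h _ (by linarith)) (by linarith)
  intro ρ hρ h0 h1
  rcases lt_trichotomy ρ.re (1 / 2) with hlt | heq | hgt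
  · exfalso
    have : NeZero (primOf χ).1 := ⟨χ.conductor_ne_zero⟩
    have hne : (primOf χ).2 ≠ 1 := fun h' => hχ ((primOf_eq_one_iff χ).1 h')
    have e : ∀ s : ℂ, LFunction χ s = LFunction (primOf χ).2 s *
        ∏ p ∈ q.primeFactors, (1 - (primOf χ).2 p * (p : ℂ) ^ (-s)) := fun s => by
      have := DirichletCharacter.LFunction_changeLevel χ.conductor_dvd_level χ.primitiveCharacter
        (s := s) (Or.inl hne)
      rwa [χ.changeLevel_primitiveCharacter] at this
    rw [e] at hρ
    have hz := (mul_eq_zero.1 hρ).resolve_right (euler_factor_ne_zero _ h0)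
    have hp : (primOf χ).2.IsPrimitive := χ.primitiveCharacter_isPrimitive
    have hre : (1 - conj ρ).re = 1 - ρ.re := by simp
    have hc : DirichletCharacter.completedLFunction (primOf χ).2 (1 - conj ρ) = 0 := by
      rw [completed_reflect hp hne, completed_eq_mul hne h0, hz, mul_zero, map_zero, mul_zero]
    rw [completed_eq_mul hne (by rw [hre]; linarith), mul_eq_zero] at hc
    refine hright (1 - conj ρ) (by rw [hre]; linarith) ?_
    rw [e, hc.resolve_left (gammaShift_ne_zero (by rw [hre]; linarith)), zero_mul]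
  · exact heq
  · exact absurd hρ (hright ρ hgt)

theorem zeta_zero_half (h : ∀ ε : ℝ, 0 < ε →
    (fun x : ℝ => Chebyshev.psi x - x) =O[atTop] fun x : ℝ => x ^ (1 / 2 + ε)) {ρ : ℂ}
    (hρ : riemannZeta ρ = 0) (h0 : 0 < ρ.re) (h1 : ρ.re < 1) : ρ.re = 1 / 2 := by
  have hright : ∀ s : ℂ, 1 / 2 < s.re → s ≠ 1 → riemannZeta s ≠ 0 := fun s hs hs1 => by
    obtain ⟨C, hC⟩ := ((h ((s.re - 1 / 2) / 2) (by linarith)).comp_tendsto
      tendsto_natCast_atTop_atTop).bound
    refine FA.Summary.zeta_zero_free_of_psi_bound (α := 1 / 2 + (s.re - 1 / 2) / 2) (C := C)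
      (e := 1) (by linarith) one_ne_zero ?_ hs1 (by linarith)
    filter_upwards [hC] with n hn
    rw [one_mul]
    simp only [Function.comp_apply, Real.norm_eq_abs] at hn
    rw [abs_of_nonneg (Real.rpow_nonneg (Nat.cast_nonneg n) _)] at hn
    exact (le_abs_self _).trans hn
  rcases lt_trichotomy ρ.re (1 / 2) with hlt | heq | hgt
  · exfalso
    refine hright (1 - ρ) (by simp; linarith) (fun e => ?_) ?_
    · have := congrArg Complex.re e
      simp at this
      linarith
    · rw [riemannZeta_one_sub (fun n e => ?_) (fun e => by rw [e] at h1; simp at h1), hρ, mul_zero]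
      have := congrArg Complex.re e
      simp at this
      linarith [(Nat.cast_nonneg n : (0 : ℝ) ≤ n)]
  · exact heq
  · exact absurd hρ (hright ρ hgt fun e => by rw [e] at h1; simp at h1)

theorem isBigO_psi_of_delta (h : ∀ ε : ℝ, 0 < ε →
    deltaChar (1 : DirichletCharacter ℂ q) =O[atTop] fun x : ℝ => x ^ (1 / 2 + ε)) (ε : ℝ)
    (hε : 0 < ε) :
    (fun x : ℝ => Chebyshev.psi x - x) =O[atTop] fun x : ℝ => x ^ (1 / 2 + ε) := by
  have hbad : (fun x : ℝ => (Chebyshev.psi x : ℂ) - psiChar (1 : DirichletCharacter ℂ q) x)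
      =O[atTop] fun x : ℝ => √x * Real.log x ^ 2 := by
    refine IsBigO.of_bound 16 ?_
    filter_upwards [eventually_ge_atTop 2, eventually_ge_atTop (q : ℝ)] with x hx hxq
    have hq : (1 : ℝ) ≤ q := Nat.one_le_cast.2 NeZero.one_le
    have hl : Real.log (q * x) ≤ 2 * Real.log x := by
      rw [Real.log_mul (by positivity) (by positivity)]
      linarith [Real.log_le_log (by linarith) hxq]
    rw [Real.norm_of_nonneg (by positivity)]
    have e : (Chebyshev.psi x : ℂ) - psiChar (1 : DirichletCharacter ℂ q) x =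
        ((∑ n ∈ (Icc 1 ⌊x⌋₊).filter (fun n => ¬n.Coprime q), Λ n : ℝ) : ℂ) := by
      rw [psiChar, Chebyshev.psi, show Ioc 0 ⌊x⌋₊ = Icc 1 ⌊x⌋₊ from by ext n; simp; omega,
        sum_filter, Complex.ofReal_sum, Complex.ofReal_sum, ← sum_sub_distrib]
      refine sum_congr rfl fun n _ => ?_
      rw [twist]
      by_cases hn : n.Coprime q
      · rw [if_neg (not_not.2 hn), MulChar.one_apply ((ZMod.isUnit_iff_coprime n q).2 hn)]
        simp
      · rw [if_pos hn, MulChar.map_nonunit _ fun h' => hn ((ZMod.isUnit_iff_coprime n q).1 h')]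
        simp
    rw [e, Complex.norm_real, Real.norm_of_nonneg
      (sum_nonneg fun n _ => ArithmeticFunction.vonMangoldt_nonneg)]
    refine (GRHProgressions.sum_not_coprime_real q hx).trans ?_
    calc 4 * √x * Real.log (q * x) ^ 2 ≤ 4 * √x * (2 * Real.log x) ^ 2 := by
          gcongr
          exact Real.log_nonneg (by nlinarith)
      _ = _ := by ring
  refine Complex.isBigO_ofReal_left.1 ((hbad.trans (GRHProgressions.isBigO_sqrt_log_sq hε)).add
    (h ε hε) |>.congr_left fun x => ?_)
  rw [deltaChar, if_pos rfl]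
  push_cast
  ring

/-- **The criterion.** -/
theorem grhMod_of_classBound (h : ClassBound q) : GRHMod q := by
  intro χ
  by_cases hχ : χ = 1
  · subst hχ
    intro ρ hρ h0 h1
    have hne : ρ ≠ 1 := fun e => by rw [e] at h1; simp at h1
    rw [show LFunction (1 : DirichletCharacter ℂ q) ρ =
      DirichletCharacter.LFunctionTrivChar q ρ from rfl,
      DirichletCharacter.LFunctionTrivChar_eq_mul_riemannZeta hne] at hρ
    refine zeta_zero_half (isBigO_psi_of_delta fun ε hε => isBigO_deltaChar h 1 hε)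
      ((mul_eq_zero.1 hρ).resolve_left ?_) h0 h1
    have := euler_factor_ne_zero (N := q) (1 : DirichletCharacter ℂ 1) h0
    simpa [MulChar.one_apply (isUnit_of_subsingleton _)] using this
  · refine grhFor_of_bound hχ fun ε hε => (isBigO_deltaChar h χ hε).congr_left fun x => ?_
    rw [deltaChar, if_neg hχ, sub_zero]

theorem isBigO_classes (hG : GRHMod q) {a : ZMod q} (ha : IsUnit a) :
    (fun x : ℝ => PNT.psiClass a x - x / q.totient) =O[atTop]
      fun x : ℝ => √x * Real.log x ^ 2 := by
  obtain ⟨C, hC, h⟩ := GRHProgressions.exists_psiClass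
  refine IsBigO.of_bound (4 * C) ?_
  filter_upwards [eventually_ge_atTop 2, eventually_ge_atTop (q : ℝ)] with x hx hxq
  have hq : (1 : ℝ) ≤ q := Nat.one_le_cast.2 NeZero.one_le
  have hl : Real.log (q * x) ≤ 2 * Real.log x := by
    rw [Real.log_mul (by positivity) (by positivity)]
    linarith [Real.log_le_log (by linarith) hxq]
  rw [Real.norm_eq_abs, Real.norm_of_nonneg (by positivity)]
  calc |PNT.psiClass a x - x / q.totient| ≤ C * √x * Real.log (q * x) ^ 2 := h q hG a ha x hx
    _ ≤ C * √x * (2 * Real.log x) ^ 2 := by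
        gcongr
        exact Real.log_nonneg (by nlinarith)
    _ = _ := by ring

theorem classBound_of_grhMod (hG : GRHMod q) : ClassBound q := fun _ ha _ hε =>
  (isBigO_classes hG ha).trans (GRHProgressions.isBigO_sqrt_log_sq hε)

end FA.GRHClasses

end
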