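import Fermat.Agent.GRHClasses.Variance
import Fermat.Agent.ThreePrimes.Major

/-!
# Exponential sums over primes under the Riemann hypothesis

`∑_{n ≤ x} Λ n e (a n / q) = μ q / φ q · x + O (√(q x) log² (q x))`, by Cauchy from the variance,
and near `a / q` by partial summation (Hardy and Littlewood).
-/

set_option autoImplicit false

noncomputable section

namespace FA.GRHClasses

open Finset
open FA.ThreePrimes (eAdd norm_eAdd eAdd_add moebiusR abs_moebiusR_le geomSum unitResidues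
  sum_coprime_fiber sum_eAdd_unitResidues_of_isUnit norm_sum_mul_eAdd_le)
open FA.GRHProgressions (GRHMod)
open scoped Real Classical ArithmeticFunction.vonMangoldt

variable {q : ℕ} [NeZero q]

theorem exists_sum_abs_error : ∃ C, 0 ≤ C ∧ ∀ (q : ℕ) [NeZero q], GRHMod q → ∀ x : ℝ, 2 ≤ x →
    ∑ r ∈ unitResidues q, |PNT.psiClass (r : ZMod q) x - x / q.totient| ≤
      C * √(q * x) * Real.log (q * x) ^ 2 := by
  obtain ⟨C, hC, h⟩ := exists_psi_variance
  refine ⟨√C, Real.sqrt_nonneg _, fun q _ hG x hx => ?_⟩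
  have hinj : ∀ r ∈ unitResidues q, ∀ s ∈ unitResidues q,
      (r : ZMod q) = (s : ZMod q) → r = s := fun r hr s hs e => by
    rw [unitResidues, mem_filter, mem_range] at hr hs
    rwa [ZMod.natCast_eq_natCast_iff', Nat.mod_eq_of_lt hr.1, Nat.mod_eq_of_lt hs.1] at e
  rw [← sum_image (f := fun a : ZMod q => |PNT.psiClass a x - x / q.totient|) hinj]
  refine (sum_le_sum_of_subset_of_nonneg (t := unitSet q) (fun a ha => ?_)
    fun a _ _ => abs_nonneg _).trans ?_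
  · obtain ⟨r, hr, rfl⟩ := mem_image.1 ha
    rw [unitResidues, mem_filter] at hr
    exact mem_unitSet.2 ((ZMod.isUnit_iff_coprime r q).2 hr.2.symm)
  refine (Real.abs_le_sqrt (sq_sum_le_card_mul_sum_sq)).trans' (le_abs_self _) |>.trans ?_
  rw [card_unitSet]
  simp only [sq_abs]
  refine (Real.sqrt_le_sqrt (mul_le_mul (Nat.cast_le.2 q.totient_le) (h q hG x hx)
    (sum_nonneg fun a _ => sq_nonneg _) (Nat.cast_nonneg q))).trans (le_of_eq ?_)
  have hl : 0 ≤ Real.log (q * x) ^ 2 := sq_nonneg _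
  rw [show (q : ℝ) * (C * x * Real.log (q * x) ^ 4) = C * (q * x) * (Real.log (q * x) ^ 2) ^ 2 by
    ring, Real.sqrt_mul (mul_nonneg hC (mul_nonneg (Nat.cast_nonneg q) (by linarith))),
    Real.sqrt_sq hl, Real.sqrt_mul hC]

/-- **The sum at a rational.** -/
theorem exists_rational_sum : ∃ C, 0 ≤ C ∧ ∀ (q : ℕ) [NeZero q], GRHMod q → ∀ a : ℤ,
    IsUnit (a : ZMod q) → ∀ x : ℝ, 2 ≤ x →
      ‖(∑ n ∈ Ioc 0 ⌊x⌋₊, (Λ n : ℂ) * eAdd ((a : ℝ) * n / q)) -
        ((moebiusR q / q.totient * x : ℝ) : ℂ)‖ ≤ C * √(q * x) * Real.log (q * x) ^ 2 := by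
  obtain ⟨C, hC, h⟩ := exists_sum_abs_error
  refine ⟨C + 4, by positivity, fun q _ hG a ha x hx => ?_⟩
  have hicc : Ioc 0 ⌊x⌋₊ = Icc 1 ⌊x⌋₊ := by ext n; simp; omega
  obtain ⟨B, hB⟩ : ∃ B : ℂ, B = ∑ n ∈ (Ioc 0 ⌊x⌋₊).filter (fun n => ¬q.Coprime n),
      (Λ n : ℂ) * eAdd ((a : ℝ) * n / q) := ⟨_, rfl⟩
  have hBle : ‖B‖ ≤ 4 * √x * Real.log (q * x) ^ 2 := by
    rw [hB]
    refine (norm_sum_le _ _).trans ((le_of_eq ?_).trans
      (GRHProgressions.sum_not_coprime_real q hx))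
    rw [hicc]
    refine sum_congr (filter_congr fun n _ => by rw [Nat.coprime_comm]) fun n _ => ?_
    rw [norm_mul, norm_eAdd, mul_one, Complex.norm_real,
      Real.norm_of_nonneg ArithmeticFunction.vonMangoldt_nonneg]
  have hclass : ∀ r : ℕ, ∑ n ∈ (Ioc 0 ⌊x⌋₊).filter (fun n : ℕ => (n : ZMod q) = (r : ZMod q)),
      Λ n = PNT.psiClass (r : ZMod q) x := fun r => by
    rw [PNT.psiClass, hicc, sum_filter]
    refine sum_congr rfl fun n _ => ?_
    simp [ArithmeticFunction.vonMangoldt.residueClass, Set.indicator_apply]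
  have hram := sum_eAdd_unitResidues_of_isUnit (NeZero.pos q) ha
  have hmain : ∑ r ∈ unitResidues q, eAdd ((a : ℝ) * r / q) * ((x / q.totient : ℝ) : ℂ) =
      ((moebiusR q / q.totient * x : ℝ) : ℂ) := by
    rw [← sum_mul, hram]
    push_cast
    ring
  have e : (∑ n ∈ Ioc 0 ⌊x⌋₊, (Λ n : ℂ) * eAdd ((a : ℝ) * n / q)) -
      ((moebiusR q / q.totient * x : ℝ) : ℂ) = B + ∑ r ∈ unitResidues q,
        eAdd ((a : ℝ) * r / q) * ((PNT.psiClass (r : ZMod q) x - x / q.totient : ℝ) : ℂ) := by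
    rw [← sum_filter_add_sum_filter_not (Ioc 0 ⌊x⌋₊) fun n => q.Coprime n, ← hB,
      sum_coprime_fiber a ⌊x⌋₊]
    simp only [hclass, Complex.ofReal_sub, mul_sub, sum_sub_distrib, hmain]
    ring
  rw [e]
  have hq : (1 : ℝ) ≤ q := Nat.one_le_cast.2 NeZero.one_le
  have hs : √x ≤ √(q * x) := Real.sqrt_le_sqrt (le_mul_of_one_le_left (by linarith) hq)
  calc ‖B + ∑ r ∈ unitResidues q,
        eAdd ((a : ℝ) * r / q) * ((PNT.psiClass (r : ZMod q) x - x / q.totient : ℝ) : ℂ)‖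
      ≤ 4 * √(q * x) * Real.log (q * x) ^ 2 + C * √(q * x) * Real.log (q * x) ^ 2 := by
        refine (norm_add_le _ _).trans (add_le_add (hBle.trans (by gcongr))
          ((norm_sum_le _ _).trans ((le_of_eq (sum_congr rfl fun r _ => ?_)).trans
            (h q hG x hx))))
        rw [norm_mul, norm_eAdd, one_mul, Complex.norm_real, Real.norm_eq_abs]
    _ = _ := by ring

/-- **The sum near a rational.** -/
theorem exists_near_rational : ∃ C, 0 ≤ C ∧ ∀ (q : ℕ) [NeZero q], GRHMod q → ∀ a : ℤ,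
    IsUnit (a : ZMod q) → ∀ (β : ℝ) (N : ℕ), 2 ≤ N →
      ‖(∑ n ∈ Ioc 0 N, (Λ n : ℂ) * eAdd (n * ((a : ℝ) / q + β))) -
        ((moebiusR q / q.totient : ℝ) : ℂ) * geomSum N β‖ ≤
          C * √(q * N) * Real.log (q * N) ^ 2 * (1 + 2 * π * |β| * N) := by
  obtain ⟨C, hC, h⟩ := exists_rational_sum
  refine ⟨C + 4, by positivity, fun q _ hG a ha β N hN => ?_⟩
  have hq : (1 : ℝ) ≤ q := Nat.one_le_cast.2 NeZero.one_le
  have hN2 : (2 : ℝ) ≤ N := by exact_mod_cast hN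
  obtain ⟨m, hm⟩ : ∃ m, m = moebiusR q / (q.totient : ℝ) := ⟨_, rfl⟩
  have hm1 : |m| ≤ 1 := by
    rw [hm, abs_div, Nat.abs_cast]
    exact (div_le_self (abs_nonneg _) (Nat.one_le_cast.2 (Nat.totient_pos.2
      (NeZero.pos q)))).trans (abs_moebiusR_le q)
  rw [← hm]
  have e : (∑ n ∈ Ioc 0 N, (Λ n : ℂ) * eAdd (n * ((a : ℝ) / q + β))) - (m : ℂ) * geomSum N β =
      ∑ n ∈ Ioc 0 N, ((Λ n : ℂ) * eAdd ((a : ℝ) * n / q) - m) * eAdd (n * β) := by
    rw [geomSum, mul_sum, ← sum_sub_distrib]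
    refine sum_congr rfl fun n _ => ?_
    rw [mul_add, eAdd_add, show (n : ℝ) * ((a : ℝ) / q) = (a : ℝ) * n / q by ring]
    ring
  rw [e]
  refine norm_sum_mul_eAdd_le _ β N fun j hj => ?_
  rw [sum_sub_distrib, sum_const, Nat.card_Ioc, Nat.sub_zero, nsmul_eq_mul]
  have hjN : (j : ℝ) ≤ N := Nat.cast_le.2 hj
  have hl : 1 / 2 ≤ Real.log (q * N) := (GRHProgressions.log_mul_facts q hN2).2.2
  have hsN : 1 ≤ √((q : ℝ) * N) := Real.one_le_sqrt.2 (by nlinarith)
  rcases le_or_gt 2 j with hj2 | hj2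
  · have hj2' : (2 : ℝ) ≤ j := by exact_mod_cast hj2
    have hb := h q hG a ha j hj2'
    rw [Nat.floor_natCast, ← hm] at hb
    refine le_trans (le_of_eq (congrArg norm ?_)) (hb.trans ?_)
    · push_cast
      ring
    · have h1 : √((q : ℝ) * j) ≤ √(q * N) := Real.sqrt_le_sqrt (by gcongr)
      have h2 : Real.log (q * j) ^ 2 ≤ Real.log (q * N) ^ 2 := pow_le_pow_left₀
        (Real.log_nonneg (by nlinarith))
        (Real.log_le_log (by positivity) (mul_le_mul_of_nonneg_left hjN (by linarith))) 2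
      calc C * √(q * j) * Real.log (q * j) ^ 2 ≤ C * √(q * N) * Real.log (q * N) ^ 2 := by gcongr
        _ ≤ _ := by gcongr; linarith
  · have h0 : ∑ n ∈ Ioc 0 j, (Λ n : ℂ) * eAdd ((a : ℝ) * n / q) = 0 := by
      refine sum_eq_zero fun n hn => ?_
      obtain rfl : n = 1 := by rw [mem_Ioc] at hn; omega
      simp
    rw [h0, zero_sub, norm_neg, norm_mul, Complex.norm_natCast, Complex.norm_real,
      Real.norm_eq_abs]
    have h1 : (j : ℝ) * |m| ≤ 1 := mul_le_one₀ (by exact_mod_cast (show j ≤ 1 by omega))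
      (abs_nonneg _) hm1
    refine h1.trans ?_
    calc (1 : ℝ) ≤ 4 * 1 * (1 / 2) ^ 2 := by norm_num
      _ ≤ (C + 4) * √(q * N) * Real.log (q * N) ^ 2 := by gcongr; linarith

end FA.GRHClasses

end
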