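import Fermat.Agent.GRHProgressions.Classes
import Fermat.Agent.VonKoch.PrimeCount
import Mathlib.Analysis.SpecialFunctions.Log.InvLog
import Mathlib.NumberTheory.AbelSummation

/-!
# `π (x; q, a)` under the Riemann hypothesis

Partial summation from `θ (x; q, a)`.
-/

set_option autoImplicit false

noncomputable section

namespace FA.GRHClasses

open Finset MeasureTheory
open FA.GRHProgressions (GRHMod)
open FA.VonKoch (liTwo intervalIntegrable_inv_log)
open scoped Real Classical

variable {q : ℕ} {a : ZMod q}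

theorem thetaClass_eq_Icc (x : ℝ) : PNT.thetaClass a x =
    ∑ n ∈ Icc 0 ⌊x⌋₊, if n.Prime ∧ (n : ZMod q) = a then Real.log n else 0 := by
  rw [PNT.thetaClass, ← sum_filter]
  refine sum_congr ?_ fun _ _ => rfl
  ext n
  simp only [mem_filter, mem_Icc]
  exact ⟨fun h => ⟨⟨Nat.zero_le n, h.1.2⟩, h.2⟩, fun h => ⟨⟨h.2.1.one_le, h.1.2⟩, h.2⟩⟩

theorem integrableOn_thetaClass_div (x : ℝ) :
    IntegrableOn (fun t => PNT.thetaClass a t / (t * Real.log t ^ 2)) (Set.Icc 2 x) volume := by
  simp only [thetaClass_eq_Icc, div_eq_mul_inv, mul_comm _ ((_ * Real.log _ ^ 2)⁻¹)]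
  refine integrableOn_mul_sum_Icc _ (by norm_num) <| ContinuousOn.integrableOn_Icc fun t ht =>
    ContinuousAt.continuousWithinAt ?_
  have h1 : t ≠ 0 := by linarith [ht.1]
  have h2 : t * Real.log t ^ 2 ≠ 0 :=
    mul_ne_zero h1 (pow_ne_zero _ (Real.log_pos (by linarith [ht.1])).ne')
  fun_prop

/-- Partial summation. -/
theorem piClass_eq (a : ZMod q) {x : ℝ} (hx : 2 ≤ x) : PNT.piClass a x =
    PNT.thetaClass a x / Real.log x +
      ∫ t in (2 : ℝ)..x, PNT.thetaClass a t / (t * Real.log t ^ 2) := by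
  obtain ⟨c, hc⟩ : ∃ c : ℕ → ℝ,
      c = fun n : ℕ => if n.Prime ∧ (n : ZMod q) = a then Real.log n else 0 := ⟨_, rfl⟩
  have hθ : ∀ t : ℝ, PNT.thetaClass a t = ∑ n ∈ Icc 0 ⌊t⌋₊, c n := fun t => by
    rw [thetaClass_eq_Icc, hc]
  have hπ : PNT.piClass a x = ∑ n ∈ Icc 0 ⌊x⌋₊, (Real.log n)⁻¹ * c n := by
    rw [PNT.piClass, card_eq_sum_ones, Nat.cast_sum, sum_filter]
    refine (sum_subset (fun n hn => mem_Icc.2 ⟨Nat.zero_le n, (mem_Icc.1 hn).2⟩)
      fun n hn hn' => ?_).trans (sum_congr rfl fun n _ => ?_)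
    · rw [if_neg]
      intro h
      exact hn' (mem_Icc.2 ⟨h.1.one_le, (mem_Icc.1 hn).2⟩)
    · rw [hc]
      simp only
      split_ifs with h
      · rw [Nat.cast_one, inv_mul_cancel₀ (Real.log_pos (Nat.one_lt_cast.2 h.1.one_lt)).ne']
      · simp
  rw [hπ, sum_mul_eq_sub_integral_mul₁ c (f := fun n : ℝ => (Real.log n)⁻¹)
    (by simp [hc]) (by simp [hc]) x, ← intervalIntegral.integral_of_le hx]
  · simp only [← hθ]
    rw [intervalIntegral.integral_congr (g := fun t =>
      -(PNT.thetaClass a t / (t * Real.log t ^ 2))) fun t _ => ?_,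
      intervalIntegral.integral_neg, sub_neg_eq_add, ← div_eq_inv_mul]
    simp only [Real.deriv_inv_log_apply]
    field_simp
  · intro z hz
    have h1 : z ≠ 0 := by linarith [hz.1]
    have h2 : Real.log z ≠ 0 := (Real.log_pos (by linarith [hz.1])).ne'
    fun_prop
  · refine ContinuousOn.integrableOn_Icc fun z hz => ContinuousWithinAt.congr ?_
      (fun _ _ => Real.deriv_inv_log_apply) Real.deriv_inv_log_apply
    have h1 : z ≠ 0 := by linarith [hz.1]
    have h2 : Real.log z ^ 2 ≠ 0 :=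
      pow_ne_zero _ (Real.log_pos (by linarith [hz.1])).ne'
    exact ContinuousAt.continuousWithinAt (by fun_prop)

theorem log_le_mul_rpow {x : ℝ} (hx : 0 < x) : Real.log x ≤ 8 * x ^ (1 / 8 : ℝ) := by
  have h := Real.log_le_sub_one_of_pos (Real.rpow_pos_of_pos hx (1 / 8 : ℝ))
  rw [Real.log_rpow hx] at h
  linarith

theorem inv_sqrt_log_sq_le {x t : ℝ} (ht : 2 ≤ t) (htx : t ≤ x) :
    1 / (√t * Real.log t ^ 2) ≤ 3 * x ^ (1 / 8 : ℝ) * t ^ (-(3 / 4) : ℝ) +
      4 / Real.log x ^ 2 * t ^ (-(1 / 2) : ℝ) := by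
  have ht0 : 0 < t := by linarith
  have hx0 : 0 < x := by linarith
  have hlt : 0.69 ≤ Real.log t := by
    linarith [Real.log_le_log two_pos ht, Real.log_two_gt_d9]
  have e1 : (1 : ℝ) / √t = t ^ (-(1 / 2) : ℝ) := by
    rw [Real.rpow_neg ht0.le, one_div, Real.sqrt_eq_rpow]
  have hsplit : 1 / (√t * Real.log t ^ 2) = t ^ (-(1 / 2) : ℝ) * (1 / Real.log t ^ 2) := by
    rw [← e1]
    ring
  rw [hsplit]
  have p1 : 0 ≤ 3 * x ^ (1 / 8 : ℝ) * t ^ (-(3 / 4) : ℝ) := by positivity
  have p2 : 0 ≤ 4 / Real.log x ^ 2 * t ^ (-(1 / 2) : ℝ) := by positivity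
  rcases le_or_gt (2 * Real.log t) (Real.log x) with h | h
  · have h8 : t ^ (1 / 4 : ℝ) ≤ x ^ (1 / 8 : ℝ) := by
      rw [Real.rpow_def_of_pos ht0, Real.rpow_def_of_pos hx0]
      exact Real.exp_le_exp.2 (by linarith)
    have h1 : 1 / Real.log t ^ 2 ≤ 3 := by
      rw [div_le_iff₀ (by positivity)]
      nlinarith
    refine le_trans ?_ (le_add_of_nonneg_right p2)
    rw [show (-(1 / 2) : ℝ) = -(3 / 4) + 1 / 4 by norm_num, Real.rpow_add ht0]
    calc t ^ (-(3 / 4) : ℝ) * t ^ (1 / 4 : ℝ) * (1 / Real.log t ^ 2)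
        ≤ t ^ (-(3 / 4) : ℝ) * x ^ (1 / 8 : ℝ) * 3 := by gcongr
      _ = _ := by ring
  · refine le_trans ?_ (le_add_of_nonneg_left p1)
    rw [mul_comm]
    refine mul_le_mul_of_nonneg_right ?_ (by positivity)
    have hlx : 0 < Real.log x := Real.log_pos (by linarith)
    rw [div_le_div_iff₀ (by positivity) (by positivity)]
    nlinarith

/-- **`π (x; q, a)`.** -/
theorem exists_piClass : ∃ C, 0 ≤ C ∧ ∀ (q : ℕ) [NeZero q], GRHMod q →
    ∀ a : ZMod q, IsUnit a → ∀ x : ℝ, 2 ≤ x →
      |PNT.piClass a x - (∫ t in (2 : ℝ)..x, 1 / Real.log t) / q.totient| ≤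
        C * √x * Real.log (q * x) ^ 2 / Real.log x := by
  obtain ⟨C, hC, h⟩ := GRHProgressions.exists_thetaClass
  refine ⟨208 * C + 12, by positivity, fun q _ hG a ha x hx => ?_⟩
  obtain ⟨φ, hφ⟩ : ∃ φ : ℝ, φ = q.totient := ⟨_, rfl⟩
  have hφ1 : 1 ≤ φ := hφ ▸ Nat.one_le_cast.2 (Nat.totient_pos.2 (NeZero.pos q))
  rw [← hφ, show (∫ t in (2 : ℝ)..x, 1 / Real.log t) = liTwo x from rfl]
  have hx0 : 0 < x := by linarith
  have hlx : 0.69 ≤ Real.log x := by
    linarith [Real.log_le_log two_pos hx, Real.log_two_gt_d9]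
  obtain ⟨L, hL⟩ : ∃ L, L = Real.log (q * x) ^ 2 := ⟨_, rfl⟩
  rw [← hL]
  have i2 : IntervalIntegrable (fun t => 1 / Real.log t ^ 2) volume 2 x :=
    Chebyshev.intervalIntegrable_one_div_log_sq one_lt_two (by linarith)
  have hparts : liTwo x = x / Real.log x - 2 / Real.log 2 +
      ∫ t in (2 : ℝ)..x, 1 / Real.log t ^ 2 := by
    have hd : ∀ t ∈ Set.uIcc 2 x, HasDerivAt (fun u => u / Real.log u)
        (1 / Real.log t - 1 / Real.log t ^ 2) t := fun t ht => by
      rw [Set.uIcc_of_le hx] at ht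
      have h2 : Real.log t ≠ 0 := (Real.log_pos (by linarith [ht.1])).ne'
      have h0 : t ≠ 0 := by linarith [ht.1]
      refine ((hasDerivAt_id' t).div (Real.hasDerivAt_log h0) h2).congr_deriv ?_
      field_simp
    have h0 := intervalIntegral.integral_eq_sub_of_hasDerivAt hd
      ((intervalIntegrable_inv_log hx).sub i2)
    rw [intervalIntegral.integral_sub (intervalIntegrable_inv_log hx) i2] at h0
    unfold liTwo
    linarith
  have i3 : IntervalIntegrable (fun t => PNT.thetaClass a t / (t * Real.log t ^ 2)) volume 2 x :=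
    (intervalIntegrable_iff_integrableOn_Icc_of_le hx).2 (integrableOn_thetaClass_div x)
  have hint : |(∫ t in (2 : ℝ)..x, PNT.thetaClass a t / (t * Real.log t ^ 2)) -
      (∫ t in (2 : ℝ)..x, 1 / Real.log t ^ 2) / φ| ≤
        C * L * (12 * x ^ (3 / 8 : ℝ) + 8 / Real.log x ^ 2 * √x) := by
    rw [← intervalIntegral.integral_div, ← intervalIntegral.integral_sub i3 (i2.div_const φ),
      ← Real.norm_eq_abs]
    have j1 : IntervalIntegrable (fun t : ℝ => t ^ (-(3 / 4) : ℝ)) volume 2 x :=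
      intervalIntegral.intervalIntegrable_rpow' (by norm_num)
    have j2 : IntervalIntegrable (fun t : ℝ => t ^ (-(1 / 2) : ℝ)) volume 2 x :=
      intervalIntegral.intervalIntegrable_rpow' (by norm_num)
    refine (intervalIntegral.norm_integral_le_of_norm_le hx
      (Filter.Eventually.of_forall fun t ht => ?_)
      (((j1.const_mul (3 * x ^ (1 / 8 : ℝ))).add
        (j2.const_mul (4 / Real.log x ^ 2))).const_mul (C * L))).trans ?_
    · have ht0 : 0 < t := by linarith [ht.1]
      have hl0 : 0 < Real.log t := Real.log_pos (by linarith [ht.1])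
      have e1 : PNT.thetaClass a t / (t * Real.log t ^ 2) - 1 / Real.log t ^ 2 / φ =
          (PNT.thetaClass a t - t / φ) / (t * Real.log t ^ 2) := by
        have : φ ≠ 0 := by linarith
        field_simp
      rw [Real.norm_eq_abs, e1, abs_div, abs_of_pos (by positivity : 0 < t * Real.log t ^ 2)]
      have hb := h q hG a ha t ht.1.le
      rw [← hφ] at hb
      have hLt : Real.log (q * t) ^ 2 ≤ L := by
        have hq : (1 : ℝ) ≤ q := Nat.one_le_cast.2 NeZero.one_le
        rw [hL]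
        refine pow_le_pow_left₀ (Real.log_nonneg (by nlinarith [ht.1])) ?_ 2
        exact Real.log_le_log (by positivity) (mul_le_mul_of_nonneg_left ht.2 (by linarith))
      calc |PNT.thetaClass a t - t / φ| / (t * Real.log t ^ 2)
          ≤ C * √t * L / (t * Real.log t ^ 2) := div_le_div_of_nonneg_right
            (hb.trans (mul_le_mul_of_nonneg_left hLt (by positivity))) (by positivity)
        _ = C * L * (1 / (√t * Real.log t ^ 2)) := by
            have hs : √t * √t = t := Real.mul_self_sqrt ht0.le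
            have hs0 : √t ≠ 0 := (Real.sqrt_pos.2 ht0).ne'
            field_simp
            rw [sq, hs]
            ring
        _ ≤ _ := mul_le_mul_of_nonneg_left (inv_sqrt_log_sq_le ht.1.le ht.2)
            (mul_nonneg hC (hL ▸ sq_nonneg _))
    · rw [intervalIntegral.integral_const_mul, intervalIntegral.integral_add
        (j1.const_mul _) (j2.const_mul _), intervalIntegral.integral_const_mul,
        intervalIntegral.integral_const_mul]
      refine mul_le_mul_of_nonneg_left (add_le_add ?_ ?_) (mul_nonneg hC (hL ▸ sq_nonneg _))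
      · rw [integral_rpow (Or.inl (by norm_num)),
          show (12 : ℝ) * x ^ (3 / 8 : ℝ) = 3 * x ^ (1 / 8 : ℝ) * (4 * x ^ (1 / 4 : ℝ)) by
            rw [show (3 / 8 : ℝ) = 1 / 8 + 1 / 4 by norm_num, Real.rpow_add hx0]
            ring]
        refine mul_le_mul_of_nonneg_left ?_ (by positivity)
        norm_num
        linarith [Real.rpow_nonneg (zero_le_two : (0 : ℝ) ≤ 2) (1 / 4 : ℝ)]
      · rw [integral_rpow (Or.inl (by norm_num)),
          show (8 : ℝ) / Real.log x ^ 2 * √x = 4 / Real.log x ^ 2 * (2 * √x) by ring]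
        refine mul_le_mul_of_nonneg_left ?_ (by positivity)
        rw [Real.sqrt_eq_rpow]
        norm_num
        linarith [Real.rpow_nonneg (zero_le_two : (0 : ℝ) ≤ 2) (1 / 2 : ℝ)]
  have hb := h q hG a ha x hx
  rw [← hφ, ← hL] at hb
  have hmain : |(PNT.thetaClass a x - x / φ) / Real.log x| ≤ C * (√x * L / Real.log x) := by
    rw [abs_div, abs_of_pos (by linarith : 0 < Real.log x), div_le_iff₀ (by linarith)]
    refine hb.trans (le_of_eq ?_)
    field_simp
  have hk : 2 / Real.log 2 / φ ≤ 12 * (√x * L / Real.log x) := by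
    have h1 : 2 / Real.log 2 / φ ≤ 3 := by
      refine (div_le_self (by positivity) hφ1).trans ?_
      rw [div_le_iff₀ (Real.log_pos one_lt_two)]
      linarith [Real.log_two_gt_d9]
    have hl : Real.log x ≤ Real.log (q * x) := Real.log_le_log hx0
      (le_mul_of_one_le_left hx0.le (Nat.one_le_cast.2 NeZero.one_le))
    have h2 : Real.log x ≤ √x * L / Real.log x := by
      rw [le_div_iff₀ (by linarith), hL]
      refine le_trans ?_ (le_mul_of_one_le_left (sq_nonneg _)
        (Real.one_le_sqrt.2 (by linarith)))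
      rw [← sq]
      exact pow_le_pow_left₀ (by linarith) hl 2
    linarith
  have hli : C * L * (12 * x ^ (3 / 8 : ℝ) + 8 / Real.log x ^ 2 * √x) ≤
      108 * C * (√x * L / Real.log x) := by
    have : 12 * x ^ (3 / 8 : ℝ) + 8 / Real.log x ^ 2 * √x ≤ 108 * (√x / Real.log x) := by
      have a1 : x ^ (3 / 8 : ℝ) * Real.log x ≤ 8 * √x := by
        calc x ^ (3 / 8 : ℝ) * Real.log x ≤ x ^ (3 / 8 : ℝ) * (8 * x ^ (1 / 8 : ℝ)) :=
              mul_le_mul_of_nonneg_left (log_le_mul_rpow hx0) (by positivity)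
          _ = _ := by
              rw [mul_left_comm, ← Real.rpow_add hx0, Real.sqrt_eq_rpow]
              norm_num
      have a2 : 12 * x ^ (3 / 8 : ℝ) ≤ 96 * (√x / Real.log x) := by
        rw [← mul_div_assoc, le_div_iff₀ (by linarith)]
        linarith
      have a3 : 8 / Real.log x ^ 2 * √x ≤ 12 * (√x / Real.log x) := by
        rw [show 8 / Real.log x ^ 2 * √x = 8 / Real.log x * (√x / Real.log x) by ring]
        refine mul_le_mul_of_nonneg_right ?_ (by positivity)
        rw [div_le_iff₀ (by linarith)]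
        linarith
      linarith
    refine (mul_le_mul_of_nonneg_left this (mul_nonneg hC (hL ▸ sq_nonneg _))).trans
      (le_of_eq (by ring))
  have e : PNT.piClass a x - liTwo x / φ = (PNT.thetaClass a x - x / φ) / Real.log x +
      ((∫ t in (2 : ℝ)..x, PNT.thetaClass a t / (t * Real.log t ^ 2)) -
        (∫ t in (2 : ℝ)..x, 1 / Real.log t ^ 2) / φ) + 2 / Real.log 2 / φ := by
    rw [piClass_eq a hx, hparts]
    ring
  rw [e, show (208 * C + 12) * √x * L / Real.log x =
    (208 * C + 12) * (√x * L / Real.log x) by ring]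
  have hp : 0 ≤ C * (√x * L / Real.log x) := (abs_nonneg _).trans hmain
  have hk0 : 0 ≤ 2 / Real.log 2 / φ := by positivity
  rw [abs_le] at hmain hint ⊢
  constructor <;> linarith

end FA.GRHClasses

end
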