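import Fermat.Agent.GRHProgressions.Classes
import Fermat.Agent.DirichletZeroCount.Basic

/-!
# The variance of primes in progressions, and Turán's theorem

`φ q ∑_a |ψ (x; q, a) - x / φ q|² = ∑_χ |ψ (x, χ) - [χ = 1] x|²`, so on the Riemann hypothesis
the variance is `O (x log⁴ (q x))` and few classes are without a prime.
-/

set_option autoImplicit false

noncomputable section

namespace FA.GRHClasses

open Finset
open FA.Gallagher (psiChar)
open FA.GRHProgressions (GRHMod)
open FA.DirichletZeroCount (apply_inv)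
open scoped Real ComplexConjugate Classical ArithmeticFunction.vonMangoldt

variable {q : ℕ} [NeZero q]

/-- `ψ (x, χ)` less its main term. -/
def deltaChar (χ : DirichletCharacter ℂ q) (x : ℝ) : ℂ :=
  psiChar χ x - if χ = 1 then (x : ℂ) else 0

theorem exists_norm_deltaChar : ∃ C, 0 ≤ C ∧ ∀ (q : ℕ) [NeZero q], GRHMod q →
    ∀ (χ : DirichletCharacter ℂ q) (x : ℝ), 2 ≤ x →
      ‖deltaChar χ x‖ ≤ C * √x * Real.log (q * x) ^ 2 := by
  obtain ⟨C₁, h1, hne⟩ := GRHProgressions.exists_psiChar_nontrivial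
  obtain ⟨C₂, h2, htriv⟩ := GRHProgressions.exists_psiChar_trivial
  refine ⟨C₁ + C₂, by positivity, fun q _ hG χ x hx => ?_⟩
  have hs : 0 ≤ √x * Real.log (q * x) ^ 2 := by positivity
  rw [deltaChar]
  by_cases hχ : χ = 1
  · subst hχ
    rw [if_pos rfl]
    refine (htriv q (hG 1) x hx).trans ?_
    nlinarith
  · rw [if_neg hχ, sub_zero]
    refine (hne q χ hχ (hG χ) x hx).trans ?_
    nlinarith

theorem sum_char_mul_inv (χ η : DirichletCharacter ℂ q) :
    ∑ a : ZMod q, χ a * η⁻¹ a = if χ = η then (q.totient : ℂ) else 0 := by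
  simp only [← MulChar.mul_apply]
  split_ifs with h
  · rw [h, mul_inv_cancel, MulChar.sum_one_eq_card_units, ZMod.card_units_eq_totient]
  · exact MulChar.sum_eq_zero_of_ne_one fun e => h (mul_inv_eq_one.1 e)

/-- Parseval for the characters. -/
theorem sum_normSq_char (c : DirichletCharacter ℂ q → ℂ) :
    ∑ a : ZMod q, Complex.normSq (∑ χ : DirichletCharacter ℂ q, χ a * c χ) =
      q.totient * ∑ χ : DirichletCharacter ℂ q, Complex.normSq (c χ) := by
  refine Complex.ofReal_injective ?_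
  push_cast
  simp only [Complex.normSq_eq_conj_mul_self, map_sum, sum_mul, mul_sum]
  rw [sum_comm]
  refine sum_congr rfl fun χ _ => ?_
  rw [sum_comm]
  calc ∑ η : DirichletCharacter ℂ q, ∑ a : ZMod q, conj (η a * c η) * (χ a * c χ)
      = ∑ η : DirichletCharacter ℂ q, conj (c η) * c χ * ∑ a : ZMod q, χ a * η⁻¹ a := by
        refine sum_congr rfl fun η _ => ?_
        rw [mul_sum]
        refine sum_congr rfl fun a _ => ?_
        rw [apply_inv, map_mul]
        ring
    _ = _ := by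
        simp only [sum_char_mul_inv, mul_ite, mul_zero, sum_ite_eq, mem_univ, if_true]
        ring

theorem totient_mul_error {a : ZMod q} (ha : IsUnit a) (x : ℝ) :
    ((q.totient * (PNT.psiClass a x - x / q.totient) : ℝ) : ℂ) =
      ∑ χ : DirichletCharacter ℂ q, χ a * conj (deltaChar χ x) := by
  have hφ : (q.totient : ℝ) ≠ 0 := Nat.cast_ne_zero.2 (Nat.totient_pos.2 (NeZero.pos q)).ne'
  have e : ((q.totient * (PNT.psiClass a x - x / q.totient) : ℝ) : ℂ) =
      ∑ χ : DirichletCharacter ℂ q, χ a⁻¹ * deltaChar χ x := by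
    have hau : IsUnit a⁻¹ := IsUnit.of_mul_eq_one a (ZMod.inv_mul_of_unit a ha)
    rw [mul_sub, mul_div_cancel₀ _ hφ, Complex.ofReal_sub,
      GRHProgressions.totient_mul_psiClass ha]
    simp only [deltaChar, mul_sub, sum_sub_distrib, mul_ite, mul_zero, sum_ite_eq', mem_univ,
      if_true, MulChar.one_apply hau, one_mul]
  have h := congrArg conj e
  rw [Complex.conj_ofReal, map_sum] at h
  rw [h]
  refine sum_congr rfl fun χ _ => ?_
  rw [map_mul, ← apply_inv]
  congr 1
  obtain ⟨u, rfl⟩ := ha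
  rw [MulChar.inv_apply, ZMod.inv_coe_unit, Ring.inverse_unit, inv_inv]

/-- The units of `ZMod q`. -/
def unitSet (q : ℕ) [NeZero q] : Finset (ZMod q) := univ.filter fun a => IsUnit a

theorem mem_unitSet {a : ZMod q} : a ∈ unitSet q ↔ IsUnit a := by simp [unitSet]

theorem card_unitSet (q : ℕ) [NeZero q] : (unitSet q).card = q.totient := by
  rw [← ZMod.card_units_eq_totient, ← Finset.card_univ,
    ← Finset.card_map ⟨((↑) : (ZMod q)ˣ → ZMod q), Units.val_injective⟩]
  congr 1
  ext a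
  simp [unitSet, IsUnit]

/-- **The variance.** -/
theorem exists_psi_variance : ∃ C, 0 ≤ C ∧ ∀ (q : ℕ) [NeZero q], GRHMod q → ∀ x : ℝ, 2 ≤ x →
    ∑ a ∈ unitSet q, (PNT.psiClass a x - x / q.totient) ^ 2 ≤
      C * x * Real.log (q * x) ^ 4 := by
  obtain ⟨C, hC, h⟩ := exists_norm_deltaChar
  refine ⟨C ^ 2, by positivity, fun q _ hG x hx => ?_⟩
  have hφ : (0 : ℝ) < q.totient := Nat.cast_pos.2 (Nat.totient_pos.2 (NeZero.pos q))
  obtain ⟨E, hE⟩ : ∃ E, E = C ^ 2 * x * Real.log (q * x) ^ 4 := ⟨_, rfl⟩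
  rw [← hE]
  refine le_of_mul_le_mul_left ?_ (mul_pos hφ hφ)
  rw [mul_sum]
  calc ∑ a ∈ unitSet q,
        (q.totient : ℝ) * q.totient * (PNT.psiClass a x - x / q.totient) ^ 2
      = ∑ a ∈ unitSet q, Complex.normSq
          (∑ χ : DirichletCharacter ℂ q, χ a * conj (deltaChar χ x)) := by
        refine sum_congr rfl fun a ha => ?_
        rw [← totient_mul_error (mem_unitSet.1 ha), Complex.normSq_ofReal]
        ring
    _ ≤ ∑ a : ZMod q, Complex.normSq
          (∑ χ : DirichletCharacter ℂ q, χ a * conj (deltaChar χ x)) :=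
        sum_le_sum_of_subset_of_nonneg (subset_univ _) fun a _ _ => Complex.normSq_nonneg _
    _ = q.totient * ∑ χ : DirichletCharacter ℂ q, Complex.normSq (conj (deltaChar χ x)) :=
        sum_normSq_char _
    _ ≤ q.totient * (q.totient * E) := by
        refine mul_le_mul_of_nonneg_left ((sum_le_card_nsmul _ _ E fun χ _ => ?_).trans
          (le_of_eq ?_)) hφ.le
        · rw [Complex.normSq_conj, ← Complex.sq_norm, hE]
          refine (pow_le_pow_left₀ (norm_nonneg _) (h q hG χ x hx) 2).trans (le_of_eq ?_)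
          rw [mul_pow, mul_pow, Real.sq_sqrt (by linarith)]
          ring
        · rw [card_univ, ← Nat.card_eq_fintype_card,
            DirichletCharacter.card_eq_totient_of_hasEnoughRootsOfUnity, nsmul_eq_mul]
    _ = _ := by ring

theorem sum_psi_sub_theta_le (q : ℕ) [NeZero q] (x : ℝ) :
    ∑ a : ZMod q, (PNT.psiClass a x - PNT.thetaClass a x) ≤
      Chebyshev.psi x - Chebyshev.theta x := by
  refine le_of_eq ?_
  rw [sum_sub_distrib]
  congr 1
  · simp only [PNT.psiClass, Chebyshev.psi]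
    rw [sum_comm, show Ioc 0 ⌊x⌋₊ = Icc 1 ⌊x⌋₊ from by ext n; simp; omega]
    refine sum_congr rfl fun n _ => ?_
    simp [ArithmeticFunction.vonMangoldt.residueClass, Set.indicator_apply]
  · simp only [PNT.thetaClass, Chebyshev.theta, sum_filter]
    rw [sum_comm, show Ioc 0 ⌊x⌋₊ = Icc 1 ⌊x⌋₊ from by ext n; simp; omega]
    refine sum_congr rfl fun n _ => ?_
    by_cases hp : n.Prime <;> simp [hp]

/-- **The variance of `θ`.** -/
theorem exists_theta_variance : ∃ C, 0 ≤ C ∧ ∀ (q : ℕ) [NeZero q], GRHMod q → ∀ x : ℝ, 2 ≤ x →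
    ∑ a ∈ unitSet q, (PNT.thetaClass a x - x / q.totient) ^ 2 ≤
      C * x * Real.log (q * x) ^ 4 := by
  obtain ⟨C, hC, h⟩ := exists_psi_variance
  obtain ⟨D, hD⟩ := Chebyshev.psi_sub_theta_le_mul_sqrt
  refine ⟨2 * C + 32 * max D 0 ^ 2, by positivity, fun q _ hG x hx => ?_⟩
  obtain ⟨d, hd⟩ : ∃ d : ZMod q → ℝ, d = fun a => PNT.psiClass a x - PNT.thetaClass a x :=
    ⟨_, rfl⟩
  have hd0 : ∀ a, 0 ≤ d a := fun a => by
    rw [hd]
    linarith [PNT.thetaClass_le_psiClass a x]
  have hsum : ∑ a ∈ unitSet q, d a ^ 2 ≤ max D 0 ^ 2 * x := by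
    refine (sum_sq_le_sq_sum_of_nonneg fun a _ => hd0 a).trans ?_
    have h1 : ∑ a ∈ unitSet q, d a ≤ max D 0 * √x :=
      (sum_le_sum_of_subset_of_nonneg (subset_univ _) fun a _ _ => hd0 a).trans
        ((hd ▸ sum_psi_sub_theta_le q x).trans ((hD x).trans
          (mul_le_mul_of_nonneg_right (le_max_left _ _) (Real.sqrt_nonneg _))))
    refine (pow_le_pow_left₀ (sum_nonneg fun a _ => hd0 a) h1 2).trans (le_of_eq ?_)
    rw [mul_pow, Real.sq_sqrt (by linarith)]
  have hl : 1 / 16 ≤ Real.log (q * x) ^ 4 := by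
    refine le_trans (by norm_num) (pow_le_pow_left₀ (by norm_num : (0 : ℝ) ≤ 1 / 2)
      (GRHProgressions.log_mul_facts q hx).2.2 4)
  calc ∑ a ∈ unitSet q, (PNT.thetaClass a x - x / q.totient) ^ 2
      ≤ ∑ a ∈ unitSet q, (2 * (PNT.psiClass a x - x / q.totient) ^ 2 + 2 * d a ^ 2) :=
        sum_le_sum fun a _ => by
          rw [hd]
          nlinarith [sq_nonneg (PNT.psiClass a x - x / q.totient +
            (PNT.psiClass a x - PNT.thetaClass a x))]
    _ = 2 * (∑ a ∈ unitSet q, (PNT.psiClass a x - x / q.totient) ^ 2) +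
          2 * ∑ a ∈ unitSet q, d a ^ 2 := by rw [sum_add_distrib, mul_sum, mul_sum]
    _ ≤ 2 * (C * x * Real.log (q * x) ^ 4) + 2 * (max D 0 ^ 2 * x) := by
        linarith [h q hG x hx]
    _ ≤ _ := by
        nlinarith [mul_le_mul_of_nonneg_left hl (show 0 ≤ 32 * max D 0 ^ 2 * x by
          exact mul_nonneg (by positivity) (by linarith))]

/-- The unit classes without a prime up to `x`. -/
def emptyClasses (q : ℕ) [NeZero q] (x : ℝ) : Finset (ZMod q) :=
  (unitSet q).filter fun a => ∀ p : ℕ, p.Prime → (p : ZMod q) = a → x < p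

/-- **Turán: few classes have no prime up to `x`.** -/
theorem exists_card_empty : ∃ C, 0 ≤ C ∧ ∀ (q : ℕ) [NeZero q], GRHMod q → ∀ x : ℝ, 2 ≤ x →
    ((emptyClasses q x).card : ℝ) ≤ C * (q.totient : ℝ) ^ 2 * Real.log (q * x) ^ 4 / x := by
  obtain ⟨C, hC, h⟩ := exists_theta_variance
  refine ⟨C, hC, fun q _ hG x hx => ?_⟩
  have hx0 : 0 < x := by linarith
  have hφ : (0 : ℝ) < q.totient := Nat.cast_pos.2 (Nat.totient_pos.2 (NeZero.pos q))
  have h1 : (emptyClasses q x).card * (x / q.totient) ^ 2 ≤ C * x * Real.log (q * x) ^ 4 := by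
    rw [← nsmul_eq_mul, ← sum_const]
    refine le_trans (le_of_eq (sum_congr rfl fun a ha => ?_))
      ((sum_le_sum_of_subset_of_nonneg (filter_subset _ _) fun a _ _ => sq_nonneg _).trans
        (h q hG x hx))
    obtain ⟨-, hno⟩ := mem_filter.1 ha
    have e : PNT.thetaClass a x = 0 := by
      rw [PNT.thetaClass]
      refine sum_eq_zero fun p hp => ?_
      obtain ⟨h1, h2, h3⟩ := mem_filter.1 hp
      have := hno p h2 h3
      linarith [(Nat.cast_le.2 (mem_Icc.1 h1).2).trans (Nat.floor_le hx0.le)]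
    rw [e]
    ring
  rw [div_pow, ← mul_div_assoc, div_le_iff₀ (by positivity)] at h1
  rw [le_div_iff₀ hx0]
  refine le_of_mul_le_mul_right ?_ hx0
  calc ((emptyClasses q x).card : ℝ) * x * x = (emptyClasses q x).card * x ^ 2 := by ring
    _ ≤ C * x * Real.log (q * x) ^ 4 * (q.totient : ℝ) ^ 2 := h1
    _ = _ := by ring

/-- **Turán: almost every class has a prime up to `K φ q log⁴ (2 q K)`.** -/
theorem exists_turan : ∃ C, 0 ≤ C ∧ ∀ (q : ℕ) [NeZero q], GRHMod q → ∀ K : ℝ, 1 ≤ K →
    ((emptyClasses q (K * q.totient * Real.log (2 * q * K) ^ 4)).card : ℝ) ≤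
      C * q.totient / K := by
  obtain ⟨C, hC, h⟩ := exists_card_empty
  refine ⟨2401 * C + 9, by positivity, fun q _ hG K hK => ?_⟩
  obtain ⟨L, hL⟩ : ∃ L, L = Real.log (2 * q * K) := ⟨_, rfl⟩
  obtain ⟨x, hx⟩ : ∃ x, x = K * q.totient * L ^ 4 := ⟨_, rfl⟩
  rw [← hL, ← hx]
  have hq : (1 : ℝ) ≤ q := Nat.one_le_cast.2 NeZero.one_le
  have hφ : (1 : ℝ) ≤ q.totient := Nat.one_le_cast.2 (Nat.totient_pos.2 (NeZero.pos q))
  have hφq : (q.totient : ℝ) ≤ q := Nat.cast_le.2 q.totient_le
  have hL2 : 0.69 ≤ L := by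
    rw [hL]
    linarith [Real.log_le_log two_pos (show (2 : ℝ) ≤ 2 * q * K by nlinarith),
      Real.log_two_gt_d9]
  rcases le_or_gt 2 x with hx2 | hx2
  · refine (h q hG x hx2).trans ?_
    have hlog : Real.log (q * x) ≤ 7 * L := by
      have l1 : Real.log q ≤ L := hL ▸ Real.log_le_log (by linarith) (by nlinarith)
      have l2 : Real.log K ≤ L := hL ▸ Real.log_le_log (by linarith) (by nlinarith)
      have l3 : Real.log (q.totient : ℝ) ≤ L := (Real.log_le_log (by linarith) hφq).trans l1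
      have l4 : Real.log L ≤ L := (Real.log_le_sub_one_of_pos (by linarith)).trans (by linarith)
      rw [hx, Real.log_mul (by positivity) (by positivity),
        Real.log_mul (by positivity) (by positivity), Real.log_mul (by positivity) (by positivity),
        Real.log_pow]
      push_cast
      linarith
    have h7 := pow_le_pow_left₀ (Real.log_nonneg (by nlinarith)) hlog 4
    calc C * (q.totient : ℝ) ^ 2 * Real.log (q * x) ^ 4 / x
        ≤ C * (q.totient : ℝ) ^ 2 * (7 * L) ^ 4 / x := by gcongr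
      _ = 2401 * C * q.totient / K := by
          rw [hx]
          field_simp
          ring
      _ ≤ _ := by gcongr; linarith
  · have hK9 : K ≤ 9 := by
      have h1 : (2 / 9 : ℝ) ≤ L ^ 4 :=
        le_trans (by norm_num) (pow_le_pow_left₀ (by norm_num) hL2 4)
      have h2 : K * (2 / 9) ≤ x := by
        rw [hx]
        calc K * (2 / 9) = K * 1 * (2 / 9) := by ring
          _ ≤ _ := by gcongr
      linarith
    rw [le_div_iff₀ (by linarith)]
    refine (mul_le_mul (Nat.cast_le.2 ((card_filter_le _ _).trans (card_unitSet q).le)) hK9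
      (by linarith) (by positivity)).trans ?_
    nlinarith

end FA.GRHClasses

end
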